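import Fermat.Agent.S59.H401.Dict
import Fermat.Agent.S29

/-!
# Row S59, leaf DICT (helper401): `dict : Arch.DictStatement`, unconditional

`Fermat.Agent.S59.H401.dict_of_S29` applied to `Fermat.Agent.S29.result` (on main).
-/

set_option autoImplicit false

namespace Fermat.Agent.S59.H401

/-- Frozen S29, from main. -/
theorem dictS29Statement : DictS29Statement :=
  @Fermat.Agent.S29.result

/-- **Leaf DICT** (cell DICT of `coord/S59.md`). -/
theorem dict : Fermat.Agent.S59.Arch.DictStatement :=
  dict_of_S29 dictS29Statement

end Fermat.Agent.S59.H401
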