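import Fermat.Agent.S59.H401.DictGen
import Fermat.Agent.S59.H401.DictFinal

/-!
# Cell DICT, general form, unconditional (helper401)

* `dictGen0 : DictGen0Statement` — DICT for ANY integral model `W` (`Δ ≠ 0`, `E[p]` irreducible,
  residually modular of level `N`); no semistability, `p = 2` allowed;
* `dictGen : DictGenStatement` — the same with a primitive `n`-th root of unity in `𝒪`.
-/

set_option autoImplicit false

namespace Fermat.Agent.S59.H401

/-- **DICT without semistability**, unconditional. -/
theorem dictGen0 : DictGen0Statement :=
  dictGen0_of_S29 dictS29Statement

/-- **DICT without semistability, with prescribed roots of unity**, unconditional. -/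
theorem dictGen : DictGenStatement :=
  dictGen_of_gen0 dictGen0

end Fermat.Agent.S59.H401
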