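import Fermat.Agent.S59.H401.DictLarge

/-!
# Cell DICT, GENERAL form (helper401): no semistability, no `p ≠ 2`, prescribed roots of unity

The proof of `dict_of_S29` never uses the hypotheses `W.IsSemistableModel`, `p ≠ 2` and
`∀ q ∈ S, q.Prime` of `Arch.DictStatement`.  For row HARD (TOP glue: the witness `W` of
`FreyPackage.ModularRepOfLevel` is an ARBITRARY integral model of the Frey curve, not necessarily
semistable) we restate the cell without them:

* `DictGen0Statement` : conclusion of `Arch.DictStatement` for every integral model `W` with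
  `W.Δ ≠ 0`, `E[p]` irreducible, residually modular of level `N`;
* `DictGenStatement`  : the same with `∃ ζ : 𝒪, IsPrimitiveRoot ζ n` for a prescribed `n > 0`
  (and primitive `d`-th roots of unity for all `d ∣ n`);
* `dictGen0_of_S29 : DictS29Statement → DictGen0Statement` (same proof as `dict_of_S29`);
* `dictGen_of_gen0 : DictGen0Statement → DictGenStatement`.

Unconditional forms: `DictGenFinal.lean`.
-/

set_option autoImplicit false
set_option linter.style.haveILetI false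

open Polynomial IsLocalRing CuspForm
open scoped WeierstrassCurve.Affine

namespace Fermat.Agent.S59.H401

/-- **Cell DICT without semistability.** -/
def DictGen0Statement : Prop :=
  ∀ (p : ℕ) [Fact p.Prime]
    (W : WeierstrassCurve ℤ) (_hΔ : W.Δ ≠ 0)
    (_hirr : W.ModRepIsIrreducible p)
    (hcard : Nat.card (Submodule.torsionBy ℤ
      ((W.map (Int.castRingHom ℚ))⁄(AlgebraicClosure ℚ)).Point p) = p ^ 2)
    (hker : GaloisFactorsThroughFiniteLevel
      (WeierstrassCurve.Affine.Point.galoisRepModuleEnd (K := AlgebraicClosure ℚ) ℚ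
        (W.map (Int.castRingHom ℚ)) p))
    (N : ℕ) [NeZero N] (S : Finset ℕ) (_hpS : p ∈ S)
    (_hNS : ∀ q : ℕ, q.Prime → q ∣ N → q ∈ S)
    (_hmod : W.IsResiduallyModularOfLevel p N),
    ∃ (𝒪 : Type) (_ : CommRing 𝒪) (_ : IsDomain 𝒪) (_ : IsDiscreteValuationRing 𝒪)
      (_ : IsAdicComplete (maximalIdeal 𝒪) 𝒪) (_ : Finite (ResidueField 𝒪))
      (_ : CharZero 𝒪) (ι : ZMod p →+* ResidueField 𝒪)
      (χ : CuspForm.heckeAlgebra N 2 (↑S : Set ℕ) →+* 𝒪),
      (p : 𝒪) ∈ maximalIdeal 𝒪 ∧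
      (∀ f : (ZMod p)[X], f.Monic → f.natDegree = 2 →
        ∃ α β : ResidueField 𝒪, f.map ι = (X - C α) * (X - C β)) ∧
      Fermat.Agent.S59.G4.ResFrobCond
        (Fermat.Agent.S59.Arch.curveResidual p W hcard hker ι) ((residue 𝒪).comp χ)

/-- **Cell DICT without semistability, with prescribed roots of unity.** -/
def DictGenStatement : Prop :=
  ∀ (p : ℕ) [Fact p.Prime]
    (W : WeierstrassCurve ℤ) (_hΔ : W.Δ ≠ 0)
    (_hirr : W.ModRepIsIrreducible p)
    (hcard : Nat.card (Submodule.torsionBy ℤ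
      ((W.map (Int.castRingHom ℚ))⁄(AlgebraicClosure ℚ)).Point p) = p ^ 2)
    (hker : GaloisFactorsThroughFiniteLevel
      (WeierstrassCurve.Affine.Point.galoisRepModuleEnd (K := AlgebraicClosure ℚ) ℚ
        (W.map (Int.castRingHom ℚ)) p))
    (N : ℕ) [NeZero N] (S : Finset ℕ) (_hpS : p ∈ S)
    (_hNS : ∀ q : ℕ, q.Prime → q ∣ N → q ∈ S)
    (_hmod : W.IsResiduallyModularOfLevel p N)
    (n : ℕ) (_hn : 0 < n),
    ∃ (𝒪 : Type) (_ : CommRing 𝒪) (_ : IsDomain 𝒪) (_ : IsDiscreteValuationRing 𝒪)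
      (_ : IsAdicComplete (maximalIdeal 𝒪) 𝒪) (_ : Finite (ResidueField 𝒪))
      (_ : CharZero 𝒪) (ι : ZMod p →+* ResidueField 𝒪)
      (χ : CuspForm.heckeAlgebra N 2 (↑S : Set ℕ) →+* 𝒪),
      (p : 𝒪) ∈ maximalIdeal 𝒪 ∧
      (∀ f : (ZMod p)[X], f.Monic → f.natDegree = 2 →
        ∃ α β : ResidueField 𝒪, f.map ι = (X - C α) * (X - C β)) ∧
      Fermat.Agent.S59.G4.ResFrobCond
        (Fermat.Agent.S59.Arch.curveResidual p W hcard hker ι) ((residue 𝒪).comp χ) ∧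
      (∃ ζ : 𝒪, IsPrimitiveRoot ζ n) ∧
      ∀ d : ℕ, d ∣ n → ∃ ξ : 𝒪, IsPrimitiveRoot ξ d

/-- **DICT without semistability, from frozen S29** (the proof of `dict_of_S29`). -/
theorem dictGen0_of_S29 (h29 : DictS29Statement) : DictGen0Statement := by
  intro p _ W hΔ hirr hcard hker N _ S hpS hNS hmod
  classical
  have hpp : p.Prime := Fact.out
  obtain ⟨f, 𝔪, hf, h𝔪, hp𝔪, hcong⟩ := hmod
  have := h𝔪
  let _ : Field (integralClosure ℤ ℂ ⧸ 𝔪) := Ideal.Quotient.field 𝔪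
  have hpk : ((p : ℕ) : integralClosure ℤ ℂ ⧸ 𝔪) = 0 := by
    have h1 := Ideal.Quotient.eq_zero_iff_mem.mpr hp𝔪
    rw [map_natCast] at h1
    exact h1
  have : CharP (integralClosure ℤ ℂ ⧸ 𝔪) p := (CharP.charP_iff_prime_eq_zero hpp).mpr hpk
  -- 1. the eigencharacter
  let incl : heckeAlgebra N 2 (↑S : Set ℕ) →+* heckeAlgebra N 2 (∅ : Set ℕ) :=
    (Subalgebra.inclusion (heckeAlgebra_mono (Set.empty_subset _))).toRingHom
  let χ₀ : heckeAlgebra N 2 (↑S : Set ℕ) →+* integralClosure ℤ ℂ :=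
    (Fermat.Agent.Lib.Ribet.H404.eigenCharInt hf).comp incl
  have hχ₀T : ∀ (ℓ : ℕ) (hℓ : ℓ.Prime) (hℓN : ¬ ℓ ∣ N) (hℓS : ℓ ∉ (↑S : Set ℕ)),
      ((χ₀ (heckeAlgebra.T hℓ hℓN hℓS) : integralClosure ℤ ℂ) : ℂ)
        = ModularFormClass.qCoeff f ℓ := by
    intro ℓ hℓ hℓN hℓS
    have e : incl (heckeAlgebra.T hℓ hℓN hℓS) = heckeAlgebra.T hℓ hℓN (Set.notMem_empty _) :=
      Subtype.ext rfl
    show ((Fermat.Agent.Lib.Ribet.H404.eigenCharInt hf (incl (heckeAlgebra.T hℓ hℓN hℓS)) :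
      integralClosure ℤ ℂ) : ℂ) = _
    rw [e, Fermat.Agent.Lib.Ribet.H404.coe_eigenCharInt,
      Fermat.Agent.Lib.Ribet.H404.eigenChar_T]
  -- 2. a point centred at `ker θ₀`
  have hm : (RingHom.ker ((Ideal.Quotient.mk 𝔪).comp χ₀)).IsPrime := RingHom.ker_isPrime _
  have hpm : ((p : ℕ) : heckeAlgebra N 2 (↑S : Set ℕ)) ∈
      RingHom.ker ((Ideal.Quotient.mk 𝔪).comp χ₀) := by
    rw [RingHom.mem_ker, map_natCast]
    exact hpk
  have hfin : Module.Finite ℤ (heckeAlgebra N 2 (↑S : Set ℕ)) := Fermat.Agent.S22.result N 2 _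
  have hred : IsReduced (heckeAlgebra N 2 (↑S : Set ℕ)) :=
    Fermat.Agent.S31.H862.heckeAlgebra_isReduced N _ (fun q hq hqN => by
      simpa using hNS q hq hqN)
  have hPTS := Fermat.Agent.S31.H262.pts_of_reduced p hpp (heckeAlgebra N 2 (↑S : Set ℕ))
  obtain ⟨P, hP⟩ := dict_exists_point_of_pts hPTS _ hpm
  -- 3. the coefficient ring
  obtain ⟨O', i1, i2, i3, i4, i5, i6, e, ι, he, hpO', hsplit⟩ := dict_exists_ext p P.O P.hp
  refine ⟨O', i1, i2, i3, i4, i5, i6, ι, e.comp P.χ, hpO', hsplit, ?_⟩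
  -- 4. the Frobenius condition
  intro ℓ hℓ hℓN hℓS B hB σ hσ
  have hℓp : ℓ ≠ p := by
    rintro rfl
    exact hℓS (by simpa using hpS)
  obtain ⟨a₀, ha₀, hchar⟩ := dict_charpoly_transport h29 p W hΔ hirr hcard hker hf 𝔪 hp𝔪 hcong
    (ZMod.castHom (dvd_refl p) (integralClosure ℤ ℂ ⧸ 𝔪)) ℓ hℓ hℓN hℓp B hB σ hσ
  have hmonic : (LinearMap.charpoly
      (((W.map (Int.castRingHom ℚ)).residualGaloisRepOf p hcard hker).ρ σ)).Monic :=
    LinearMap.charpoly_monic _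
  have hdeg : (LinearMap.charpoly
      (((W.map (Int.castRingHom ℚ)).residualGaloisRepOf p hcard hker).ρ σ)).natDegree = 2 := by
    rw [LinearMap.charpoly_natDegree]
    exact ((W.map (Int.castRingHom ℚ)).residualGaloisRepOf p hcard hker).finrank_eq
  have hquad := dict_monic_quadratic hmonic hdeg
  show LinearMap.charpoly ((Fermat.Agent.S59.Arch.curveResidual p W hcard hker ι).ρ σ)
    = X ^ 2 - C (((residue O').comp (e.comp P.χ)) (heckeAlgebra.T hℓ hℓN hℓS)) * X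
      + C ((ℓ : ℕ) : ResidueField O')
  rw [show Fermat.Agent.S59.Arch.curveResidual p W hcard hker ι
      = ((W.map (Int.castRingHom ℚ)).residualGaloisRepOf p hcard hker).baseChangeAlong ι from rfl,
    dict_charpoly_baseChangeAlong]
  generalize LinearMap.charpoly
      (((W.map (Int.castRingHom ℚ)).residualGaloisRepOf p hcard hker).ρ σ) = P₀
    at hchar hquad ⊢
  -- the coefficients modulo `𝔪`
  have hmap : P₀.map (ZMod.castHom (dvd_refl p) (integralClosure ℤ ℂ ⧸ 𝔪))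
      = X ^ 2 + C (((P₀.coeff 1).val : ℕ) : integralClosure ℤ ℂ ⧸ 𝔪) * X
        + C (((P₀.coeff 0).val : ℕ) : integralClosure ℤ ℂ ⧸ 𝔪) := by
    conv_lhs => rw [hquad]
    rw [Polynomial.map_add, Polynomial.map_add, Polynomial.map_mul, Polynomial.map_pow,
      Polynomial.map_X, Polynomial.map_C, Polynomial.map_C, dict_map_zmod, dict_map_zmod]
  rw [hmap] at hchar
  have hrew : (X ^ 2 - C (Ideal.Quotient.mk 𝔪 a₀) * X + C ((ℓ : ℕ) : integralClosure ℤ ℂ ⧸ 𝔪) :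
      (integralClosure ℤ ℂ ⧸ 𝔪)[X])
      = X ^ 2 + C (-(Ideal.Quotient.mk 𝔪 a₀)) * X + C ((ℓ : ℕ) : integralClosure ℤ ℂ ⧸ 𝔪) := by
    rw [map_neg]
    ring
  rw [hrew] at hchar
  have hc1 : (((P₀.coeff 1).val : ℕ) : integralClosure ℤ ℂ ⧸ 𝔪) = -(Ideal.Quotient.mk 𝔪 a₀) := by
    have h1 := congrArg (fun q : (integralClosure ℤ ℂ ⧸ 𝔪)[X] => q.coeff 1) hchar
    rwa [dict_coeff_one, dict_coeff_one] at h1
  have hc0 : (((P₀.coeff 0).val : ℕ) : integralClosure ℤ ℂ ⧸ 𝔪)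
      = ((ℓ : ℕ) : integralClosure ℤ ℂ ⧸ 𝔪) := by
    have h1 := congrArg (fun q : (integralClosure ℤ ℂ ⧸ 𝔪)[X] => q.coeff 0) hchar
    rwa [dict_coeff_zero, dict_coeff_zero] at h1
  have hc0' : P₀.coeff 0 = ((ℓ : ℕ) : ZMod p) := by
    apply (ZMod.castHom (dvd_refl p) (integralClosure ℤ ℂ ⧸ 𝔪)).injective
    rw [dict_map_zmod, hc0, map_natCast]
  -- `T_ℓ + c₁` lies in `ker θ₀`
  have hmem : heckeAlgebra.T hℓ hℓN hℓS + (((P₀.coeff 1).val : ℕ) : heckeAlgebra N 2 (↑S : Set ℕ))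
      ∈ RingHom.ker ((Ideal.Quotient.mk 𝔪).comp χ₀) := by
    have ha : χ₀ (heckeAlgebra.T hℓ hℓN hℓS) = a₀ :=
      Subtype.ext ((hχ₀T ℓ hℓ hℓN hℓS).trans ha₀.symm)
    rw [RingHom.mem_ker, map_add, map_natCast, RingHom.comp_apply, ha, hc1, add_neg_cancel]
  -- reduce at the point
  have hres : residue O' (e (P.χ (heckeAlgebra.T hℓ hℓN hℓS))) = -ι (P₀.coeff 1) := by
    have h1 := he _ (hP _ hmem)
    rw [map_add, map_add, map_natCast, map_natCast] at h1
    have h2 := (residue_eq_zero_iff _).mpr h1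
    rw [map_add, map_natCast] at h2
    rw [dict_map_zmod ι]
    exact eq_neg_of_add_eq_zero_left h2
  rw [RingHom.comp_apply, RingHom.comp_apply, hres]
  conv_lhs => rw [hquad]
  rw [Polynomial.map_add, Polynomial.map_add, Polynomial.map_mul, Polynomial.map_pow,
    Polynomial.map_X, Polynomial.map_C, Polynomial.map_C, hc0', map_natCast, map_neg]
  ring

/-- **Roots of unity**: enlarge the coefficient ring. -/
theorem dictGen_of_gen0 (h : DictGen0Statement) : DictGenStatement := by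
  intro p _ W hΔ hirr hcard hker N _ S hpS hNS hmod n hn
  obtain ⟨𝒪, i1, i2, i3, i4, i5, i6, ι, χ, hp𝒪, hsplit, hfrob⟩ :=
    h p W hΔ hirr hcard hker N S hpS hNS hmod
  obtain ⟨O', j1, j2, j3, j4, j5, j6, e, he, -, hpO', ζ, hζ⟩ :=
    dict_exists_ext_root p n hn 𝒪 hp𝒪
  obtain ⟨hsplit', hfrob'⟩ := dict_transfer p W hcard hker 𝒪 O' e ι χ hsplit hfrob
  exact ⟨O', j1, j2, j3, j4, j5, j6, (ResidueField.map e).comp ι, e.comp χ, hpO', hsplit',
    hfrob', ⟨ζ, hζ⟩, fun d hd => dict_primitiveRoot_of_dvd hn hζ hd⟩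

/-- The frozen cell `Arch.DictStatement` is a special case. -/
theorem dict_of_gen0 (h : DictGen0Statement) : Fermat.Agent.S59.Arch.DictStatement :=
  fun p _ _ W hΔ _ hirr hcard hker N _ S hpS _ hNS hmod =>
    h p W hΔ hirr hcard hker N S hpS hNS hmod

end Fermat.Agent.S59.H401
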