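import Fermat.Agent.S31.H262.Points
import Fermat.Agent.S59.G4.H109.PointsDVR

/-!
# Row S59, leaf DICT (helper401), part 2: coefficient rings

* `dict_exists_point_of_pts` : if the `p`-adic points of `R` are topologically separating
  (`S31.PTS p R`), then every prime `m ∋ p` of `R` is contained in the centre of some `p`-adic
  point of `R` (a ring homomorphism to a complete DVR of characteristic zero with finite residue
  field).
* `dict_exists_ext` : every complete DVR `O` of characteristic zero with finite residue field of
  characteristic `p` has a finite extension `O'` of the same kind in whose residue field every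
  monic quadratic polynomial over `𝔽_p` splits.  (`O'` = integral closure of `O` in the splitting
  field of the product of all `X² + b X + c`, `0 ≤ b, c < p`.)
-/

set_option autoImplicit false

open Polynomial IsLocalRing

namespace Fermat.Agent.S59.H401

open Fermat.Agent.S31 (PadicPoint PTS)

/-! ### Points centred at a given prime -/

/-- The centre of a `p`-adic point is a maximal ideal. -/
theorem dict_center_isMaximal {p : ℕ} {R : Type} [CommRing R] (P : PadicPoint p R) :
    ((maximalIdeal P.O).comap P.χ).IsMaximal := by
  have hker : RingHom.ker ((residue P.O).comp P.χ) = (maximalIdeal P.O).comap P.χ := by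
    ext t
    rw [RingHom.mem_ker, Ideal.mem_comap, RingHom.comp_apply, residue_eq_zero_iff]
  rw [← hker]
  have : (RingHom.ker ((residue P.O).comp P.χ)).IsPrime := RingHom.ker_isPrime _
  have : Finite (R ⧸ RingHom.ker ((residue P.O).comp P.χ)) :=
    Finite.of_injective (RingHom.kerLift ((residue P.O).comp P.χ))
      (RingHom.kerLift_injective _)
  exact Ideal.Quotient.maximal_of_isField _
    (Finite.isField_of_domain (R ⧸ RingHom.ker ((residue P.O).comp P.χ)))

/-- A product of elements outside a prime ideal is outside the prime ideal. -/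
theorem dict_list_prod_notMem {R : Type*} [CommRing R] (m : Ideal R) [hm : m.IsPrime] :
    ∀ l : List R, (∀ x ∈ l, x ∉ m) → l.prod ∉ m
  | [], _ => by
      rw [List.prod_nil]
      exact (Ideal.ne_top_iff_one m).mp hm.ne_top
  | a :: l, h => by
      rw [List.prod_cons]
      intro hmem
      rcases hm.mem_or_mem hmem with h1 | h1
      · exact h a List.mem_cons_self h1
      · exact dict_list_prod_notMem m l (fun x hx => h x (List.mem_cons_of_mem _ hx)) h1

/-- **A point centred at `m`.**  If the `p`-adic points of `R` are topologically separating, every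
prime `m ∋ p` is contained in the centre of a `p`-adic point. -/
theorem dict_exists_point_of_pts {p : ℕ} {R : Type} [CommRing R] (hPTS : PTS p R)
    (m : Ideal R) [hm : m.IsPrime] (hpm : (p : R) ∈ m) :
    ∃ P : PadicPoint p R, ∀ t ∈ m, P.χ t ∈ maximalIdeal P.O := by
  classical
  obtain ⟨F, n', hF⟩ := hPTS m hm hpm 1
  by_contra hcon
  push Not at hcon
  have hex : ∀ P : PadicPoint p R, ∃ u : R, P.χ u ∈ maximalIdeal P.O ∧ u ∉ m := by
    intro P
    by_contra hno
    push Not at hno
    have hle : (maximalIdeal P.O).comap P.χ ≤ m := fun u hu => hno u hu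
    have heq := (dict_center_isMaximal P).eq_of_le hm.ne_top hle
    obtain ⟨t, htm, ht⟩ := hcon P
    apply ht
    have : t ∈ (maximalIdeal P.O).comap P.χ := by rw [heq]; exact htm
    exact this
  choose u hu1 hu2 using hex
  have htm : (F.map (fun P => u P ^ n')).prod ∉ m := by
    apply dict_list_prod_notMem m
    intro x hx
    obtain ⟨P, -, rfl⟩ := List.mem_map.mp hx
    exact fun h => hu2 P (hm.mem_of_pow_mem _ h)
  apply htm
  have key := hF (F.map (fun P => u P ^ n')).prod (fun P hP => by
    have hdvd : u P ^ n' ∣ (F.map (fun P => u P ^ n')).prod :=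
      List.dvd_prod (List.mem_map.mpr ⟨P, hP, rfl⟩)
    obtain ⟨c, hc⟩ := hdvd
    rw [hc, map_mul, map_pow]
    exact Ideal.mul_mem_right _ _ (Ideal.pow_mem_pow (hu1 P) n'))
  rwa [pow_one] at key

/-! ### Quadratics -/

/-- Vieta for a monic quadratic which splits. -/
theorem dict_vieta_of_splits {L : Type*} [Field L] (b c : L)
    (h : (X ^ 2 + C b * X + C c : L[X]).Splits) :
    ∃ α β : L, b = -(α + β) ∧ c = α * β := by
  have hmonic : (X ^ 2 + C b * X + C c : L[X]).Monic := by
    have h2 : (X ^ 2 + C b * X + C c : L[X]) = X ^ 2 + (C b * X + C c) := by ring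
    rw [h2]
    apply Polynomial.monic_X_pow_add
    exact (degree_linear_le).trans_lt (by norm_num)
  have hdeg : (X ^ 2 + C b * X + C c : L[X]).natDegree = 2 := by
    have h2 : (X ^ 2 + C b * X + C c : L[X]) = X ^ 2 + (C b * X + C c) := by ring
    rw [h2]
    have hlt : (C b * X + C c : L[X]).degree < (X ^ 2 : L[X]).degree := by
      rw [degree_X_pow]
      exact (degree_linear_le).trans_lt (by norm_num)
    rw [natDegree_add_eq_left_of_degree_lt hlt, natDegree_X_pow]
  have hcard := h.natDegree_eq_card_roots
  rw [hdeg] at hcard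
  obtain ⟨α, β, hαβ⟩ := Multiset.card_eq_two.mp hcard.symm
  have hprod := h.eq_prod_roots_of_monic hmonic
  rw [hαβ] at hprod
  have hprod' : (X ^ 2 + C b * X + C c : L[X]) = (X - C α) * (X - C β) := by
    rw [hprod]
    simp
  refine ⟨α, β, ?_, ?_⟩
  · have h1 := congrArg (fun q : L[X] => q.coeff 1) hprod'
    simp only [coeff_add, coeff_X_pow, coeff_C_mul, coeff_X, coeff_C] at h1
    have h2 : ((X - C α) * (X - C β) : L[X]).coeff 1 = -(α + β) := by
      have e : ((X - C α) * (X - C β) : L[X]) = X ^ 2 + C (-(α + β)) * X + C (α * β) := by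
        simp only [map_neg, map_add, map_mul]
        ring
      rw [e]
      simp [coeff_X_pow, coeff_C]
    rw [h2] at h1
    simpa using h1
  · have h1 := congrArg (fun q : L[X] => q.coeff 0) hprod'
    simp only [coeff_add, coeff_X_pow, coeff_C_mul, coeff_X, coeff_C] at h1
    have h2 : ((X - C α) * (X - C β) : L[X]).coeff 0 = α * β := by
      have e : ((X - C α) * (X - C β) : L[X]) = X ^ 2 + C (-(α + β)) * X + C (α * β) := by
        simp only [map_neg, map_add, map_mul]
        ring
      rw [e]
      simp [coeff_X_pow, coeff_C]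
    rw [h2] at h1
    simpa using h1

/-- The product of all monic quadratics with coefficients in `{0, …, p - 1}`. -/
noncomputable def dictQuadProd (p : ℕ) (K : Type) [Field K] : K[X] :=
  ∏ b ∈ Finset.range p, ∏ c ∈ Finset.range p, (X ^ 2 + C (b : K) * X + C (c : K))

theorem dictQuadProd_monic (p : ℕ) (K : Type) [Field K] : (dictQuadProd p K).Monic := by
  apply Polynomial.monic_prod_of_monic
  intro b _
  apply Polynomial.monic_prod_of_monic
  intro c _
  have h2 : (X ^ 2 + C (b : K) * X + C (c : K) : K[X]) = X ^ 2 + (C (b : K) * X + C (c : K)) := by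
    ring
  rw [h2]
  apply Polynomial.monic_X_pow_add
  exact (degree_linear_le).trans_lt (by norm_num)

theorem dict_dvd_quadProd (p : ℕ) (K : Type) [Field K] {b c : ℕ} (hb : b < p) (hc : c < p) :
    (X ^ 2 + C (b : K) * X + C (c : K) : K[X]) ∣ dictQuadProd p K :=
  (Finset.dvd_prod_of_mem (fun c : ℕ => (X ^ 2 + C (b : K) * X + C (c : K) : K[X]))
    (Finset.mem_range.mpr hc)).trans
    (Finset.dvd_prod_of_mem
      (fun b : ℕ => ∏ c ∈ Finset.range p, (X ^ 2 + C (b : K) * X + C (c : K) : K[X]))
      (Finset.mem_range.mpr hb))

/-- In the splitting field of `dictQuadProd`, every quadratic `X² + b X + c` (`b, c < p`) has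
roots `α, β` with `b = -(α + β)`, `c = α β`. -/
theorem dict_exists_roots (p : ℕ) (K : Type) [Field K] {b c : ℕ} (hb : b < p) (hc : c < p) :
    ∃ α β : (dictQuadProd p K).SplittingField,
      ((b : ℕ) : (dictQuadProd p K).SplittingField) = -(α + β) ∧
      ((c : ℕ) : (dictQuadProd p K).SplittingField) = α * β := by
  have hs := Polynomial.SplittingField.splits (dictQuadProd p K)
  have hne : (dictQuadProd p K).map (algebraMap K (dictQuadProd p K).SplittingField) ≠ 0 :=
    ((dictQuadProd_monic p K).map _).ne_zero
  have hdvd := Polynomial.map_dvd (algebraMap K (dictQuadProd p K).SplittingField)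
    (dict_dvd_quadProd p K hb hc)
  have hs' := hs.of_dvd hne hdvd
  have e : (X ^ 2 + C (b : K) * X + C (c : K) : K[X]).map
      (algebraMap K (dictQuadProd p K).SplittingField)
      = X ^ 2 + C ((b : ℕ) : (dictQuadProd p K).SplittingField) * X
        + C ((c : ℕ) : (dictQuadProd p K).SplittingField) := by
    simp
  rw [e] at hs'
  exact dict_vieta_of_splits _ _ hs'

end Fermat.Agent.S59.H401
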