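import Fermat.Agent.S59.H401.DictPoint

/-!
# Row S59, leaf DICT (helper401), part 3: enlarging the coefficient ring

`dict_exists_ext` : every complete DVR `O` of characteristic zero with finite residue field of
characteristic `p` has a finite extension `O'` of the same kind such that every monic quadratic
polynomial over `𝔽_p` splits in the residue field of `O'`.
`O'` is the integral closure of `O` in the splitting field `L` of the product of all
`X² + b X + c`, `0 ≤ b, c < p`, over `K = Frac O` (complete DVR by `S59/G4/H109/PointsDVR.lean`):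
the roots of these polynomials are integral, hence lie in `O'`, and Vieta's formulas reduce to the
residue field.
-/

set_option autoImplicit false

open Polynomial IsLocalRing

namespace Fermat.Agent.S59.H401

/-- A monic quadratic over a commutative ring with "Vieta roots" `α, β` is `(X - α)(X - β)`. -/
theorem dict_quadratic_eq_of_vieta {R : Type*} [CommRing R] (b c α β : R)
    (hb : b = -(α + β)) (hc : c = α * β) :
    (X ^ 2 + C b * X + C c : R[X]) = (X - C α) * (X - C β) := by
  rw [hb, hc]
  simp only [map_neg, map_add, map_mul]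
  ring

/-- A monic polynomial of degree two is `X² + b X + c`. -/
theorem dict_monic_quadratic {R : Type*} [CommRing R] {f : R[X]} (hf : f.Monic)
    (hdeg : f.natDegree = 2) : f = X ^ 2 + C (f.coeff 1) * X + C (f.coeff 0) := by
  have h2 : f.coeff 2 = 1 := by
    have := hf.coeff_natDegree
    rwa [hdeg] at this
  have hle : f.degree ≤ 2 := by
    have := degree_le_of_natDegree_le (le_of_eq hdeg)
    simpa using this
  have h := eq_quadratic_of_degree_le_two hle
  rw [h2, map_one, one_mul] at h
  exact h

/-- **Enlarging the coefficient ring** so that all quadratics over `𝔽_p` split residually. -/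
theorem dict_exists_ext (p : ℕ) [hp : Fact p.Prime]
    (O : Type) [CommRing O] [IsDomain O] [IsDiscreteValuationRing O]
    [IsAdicComplete (maximalIdeal O) O] [Finite (ResidueField O)] [CharZero O]
    (hpO : (p : O) ∈ maximalIdeal O) :
    ∃ (O' : Type) (_ : CommRing O') (_ : IsDomain O') (_ : IsDiscreteValuationRing O')
      (_ : IsAdicComplete (maximalIdeal O') O') (_ : Finite (ResidueField O'))
      (_ : CharZero O') (e : O →+* O') (ι : ZMod p →+* ResidueField O'),
      (∀ a ∈ maximalIdeal O, e a ∈ maximalIdeal O') ∧ (p : O') ∈ maximalIdeal O' ∧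
      ∀ f : (ZMod p)[X], f.Monic → f.natDegree = 2 →
        ∃ α β : ResidueField O', f.map ι = (X - C α) * (X - C β) := by
  classical
  have hpp : p.Prime := hp.out
  have hdvr : IsDiscreteValuationRing
      (Fermat.Agent.S59.G4.H109.intRingO O
        (dictQuadProd p (FractionRing O)).SplittingField) :=
    Fermat.Agent.S59.G4.H109.intRingO_isDiscreteValuationRing O (FractionRing O) _
  have hloc : IsLocalHom (algebraMap O (Fermat.Agent.S59.G4.H109.intRingO O
        (dictQuadProd p (FractionRing O)).SplittingField)) :=
    Fermat.Agent.S59.G4.H109.intRingO_isLocalHom O (FractionRing O) _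
  have hmax : ∀ a ∈ maximalIdeal O,
      algebraMap O (Fermat.Agent.S59.G4.H109.intRingO O
        (dictQuadProd p (FractionRing O)).SplittingField) a ∈
      maximalIdeal (Fermat.Agent.S59.G4.H109.intRingO O
        (dictQuadProd p (FractionRing O)).SplittingField) := by
    intro a ha
    rw [mem_maximalIdeal, mem_nonunits_iff] at ha ⊢
    exact fun hu => ha (hloc.map_nonunit a hu)
  have hpO' : ((p : ℕ) : Fermat.Agent.S59.G4.H109.intRingO O
        (dictQuadProd p (FractionRing O)).SplittingField) ∈
      maximalIdeal (Fermat.Agent.S59.G4.H109.intRingO O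
        (dictQuadProd p (FractionRing O)).SplittingField) := by
    have := hmax _ hpO
    rwa [map_natCast] at this
  have hchar : CharP (ResidueField (Fermat.Agent.S59.G4.H109.intRingO O
        (dictQuadProd p (FractionRing O)).SplittingField)) p := by
    apply (CharP.charP_iff_prime_eq_zero hpp).mpr
    rw [← map_natCast (residue (Fermat.Agent.S59.G4.H109.intRingO O
        (dictQuadProd p (FractionRing O)).SplittingField))]
    exact (residue_eq_zero_iff _).mpr hpO'
  refine ⟨Fermat.Agent.S59.G4.H109.intRingO O (dictQuadProd p (FractionRing O)).SplittingField,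
    inferInstance, inferInstance, hdvr,
    Fermat.Agent.S59.G4.H109.intRingO_isAdicComplete O (FractionRing O) _,
    Fermat.Agent.S59.G4.H109.intRingO_finite_residueField O (FractionRing O) _,
    Fermat.Agent.S59.G4.H109.intRingO_charZero O (FractionRing O) _,
    algebraMap O _, ZMod.castHom (dvd_refl p) _, hmax, hpO', ?_⟩
  intro f hmonic hdeg
  have hb : (f.coeff 1).val < p := ZMod.val_lt _
  have hc : (f.coeff 0).val < p := ZMod.val_lt _
  obtain ⟨α, β, hαβ, hαβ'⟩ := dict_exists_roots p (FractionRing O) hb hc
  -- the roots are integral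
  have hint : ∀ x y : (dictQuadProd p (FractionRing O)).SplittingField,
      (((f.coeff 1).val : ℕ) : (dictQuadProd p (FractionRing O)).SplittingField) = -(x + y) →
      (((f.coeff 0).val : ℕ) : (dictQuadProd p (FractionRing O)).SplittingField) = x * y →
      IsIntegral O x := by
    intro x y h1 h2
    refine ⟨X ^ 2 + C (((f.coeff 1).val : ℕ) : O) * X + C (((f.coeff 0).val : ℕ) : O), ?_, ?_⟩
    · have e : (X ^ 2 + C (((f.coeff 1).val : ℕ) : O) * X + C (((f.coeff 0).val : ℕ) : O) : O[X])
          = X ^ 2 + (C (((f.coeff 1).val : ℕ) : O) * X + C (((f.coeff 0).val : ℕ) : O)) := by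
        ring
      rw [e]
      exact monic_X_pow_add ((degree_linear_le).trans_lt (by norm_num))
    · rw [eval₂_add, eval₂_add, eval₂_mul, eval₂_pow, eval₂_X, eval₂_C, eval₂_C, map_natCast,
        map_natCast, h1, h2]
      ring
  have hα : IsIntegral O α := hint α β hαβ hαβ'
  have hβ : IsIntegral O β := hint β α (by rw [hαβ, add_comm]) (by rw [hαβ', mul_comm])
  -- Vieta in `O'` and in the residue field
  have v1 : (((f.coeff 1).val : ℕ) : Fermat.Agent.S59.G4.H109.intRingO O
        (dictQuadProd p (FractionRing O)).SplittingField)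
      = -((⟨α, hα⟩ : Fermat.Agent.S59.G4.H109.intRingO O
        (dictQuadProd p (FractionRing O)).SplittingField) + ⟨β, hβ⟩) :=
    Subtype.ext (by push_cast; exact hαβ)
  have v2 : (((f.coeff 0).val : ℕ) : Fermat.Agent.S59.G4.H109.intRingO O
        (dictQuadProd p (FractionRing O)).SplittingField)
      = (⟨α, hα⟩ : Fermat.Agent.S59.G4.H109.intRingO O
        (dictQuadProd p (FractionRing O)).SplittingField) * ⟨β, hβ⟩ :=
    Subtype.ext (by push_cast; exact hαβ')
  have w1 := congrArg (residue (Fermat.Agent.S59.G4.H109.intRingO O
        (dictQuadProd p (FractionRing O)).SplittingField)) v1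
  have w2 := congrArg (residue (Fermat.Agent.S59.G4.H109.intRingO O
        (dictQuadProd p (FractionRing O)).SplittingField)) v2
  rw [map_natCast, map_neg, map_add] at w1
  rw [map_natCast, map_mul] at w2
  refine ⟨residue _ ⟨α, hα⟩, residue _ ⟨β, hβ⟩, ?_⟩
  rw [← dict_quadratic_eq_of_vieta _ _ _ _ w1 w2]
  conv_lhs => rw [dict_monic_quadratic hmonic hdeg]
  rw [Polynomial.map_add, Polynomial.map_add, Polynomial.map_mul, Polynomial.map_pow,
    Polynomial.map_X, Polynomial.map_C, Polynomial.map_C]
  have e1 : (ZMod.castHom (dvd_refl p) (ResidueField (Fermat.Agent.S59.G4.H109.intRingO O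
        (dictQuadProd p (FractionRing O)).SplittingField))) (f.coeff 1)
      = (((f.coeff 1).val : ℕ) : ResidueField (Fermat.Agent.S59.G4.H109.intRingO O
        (dictQuadProd p (FractionRing O)).SplittingField)) := by
    conv_lhs => rw [← ZMod.natCast_zmod_val (f.coeff 1)]
    rw [map_natCast]
  have e0 : (ZMod.castHom (dvd_refl p) (ResidueField (Fermat.Agent.S59.G4.H109.intRingO O
        (dictQuadProd p (FractionRing O)).SplittingField))) (f.coeff 0)
      = (((f.coeff 0).val : ℕ) : ResidueField (Fermat.Agent.S59.G4.H109.intRingO O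
        (dictQuadProd p (FractionRing O)).SplittingField)) := by
    conv_lhs => rw [← ZMod.natCast_zmod_val (f.coeff 0)]
    rw [map_natCast]
  rw [e1, e0]

end Fermat.Agent.S59.H401
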