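import Fermat.Agent.S59.H401.DictFrob
import Fermat.Agent.S59.H401.DictExt
import Fermat.Agent.Lib.Ribet.H404.ResMod
import Fermat.Agent.S31.H862.Reduced

/-!
# Row S59, leaf DICT (helper401): `dict_of_S29 : DictS29Statement → Arch.DictStatement`

Let `W` be semistable with irreducible `E[p]` (`p` odd), residually modular of level `N`
(Prelude language: a normalised eigenform `f` of level `N` and a maximal ideal `𝔪 ∋ p` of `ℤ̄` with
`a_ℓ(f) ≡ a_ℓ(W) mod 𝔪` at the good primes `ℓ ∤ N p`), and let `S ⊇ {p} ∪ primes(N)` be finite.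
Then there are a complete DVR `𝒪` of characteristic zero with finite residue field `k ⊇ 𝔽_p` in
which all monic quadratics over `𝔽_p` split, and a character `χ : 𝕋^S → 𝒪` of the anemic Hecke
algebra such that `E[p] ⊗ k` has the Frobenius characteristic polynomials
`X² − χ̄(T_ℓ) X + ℓ` at ALL primes `ℓ ∉ S` (including the bad primes of `W` outside `S`).

Proof.
1. `χ₀ : 𝕋^S → ℤ̄`, the eigencharacter of `f` (`Lib/Ribet/H404`), `θ₀ = (mod 𝔪) ∘ χ₀`.
2. `𝕋^S` is finite over `ℤ` (S22), reduced (`S31/H862`, Petersson) and torsion-free, so its `p`-adic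
   points are separating (`S31/H262`); hence some `p`-adic point `P : 𝕋^S → P.O` is centred at
   `ker θ₀` (`dict_exists_point_of_pts`).
3. Enlarge `P.O` to `𝒪` so that quadratics split residually (`dict_exists_ext`).
4. For `ℓ ∉ S` and a Frobenius `σ` at `ℓ`: `charpoly(E[p])(σ) ≡ X² − a_ℓ(f) X + ℓ mod 𝔪`
   (`dict_charpoly_transport`: frozen S29 + exact Chebotarev + the Frobenius relation at good
   primes).  Its coefficients lie in `𝔽_p`, so `T_ℓ + c₁`, `c₁` an integer lift of the linear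
   coefficient, lies in `ker θ₀`, hence in the centre of `P`.
-/

set_option autoImplicit false

open Polynomial IsLocalRing CuspForm

namespace Fermat.Agent.S59.H401

/-- Characteristic polynomials of a base-changed residual representation. -/
theorem dict_charpoly_baseChangeAlong {k k' : Type} [Field k] [Field k'] (ι : k →+* k')
    (ρ : ResidualGaloisRep k) (σ : DGQ) :
    LinearMap.charpoly ((ρ.baseChangeAlong ι).ρ σ) = (LinearMap.charpoly (ρ.ρ σ)).map ι := by
  let _ : Algebra k k' := ι.toAlgebra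
  exact LinearMap.charpoly_baseChange (ρ.ρ σ) k'

/-- A ring homomorphism from `ZMod p` is the cast of the canonical representative. -/
theorem dict_map_zmod {p : ℕ} [NeZero p] {R : Type*} [Semiring R] (g : ZMod p →+* R)
    (a : ZMod p) : g a = ((a.val : ℕ) : R) := by
  conv_lhs => rw [← ZMod.natCast_zmod_val a]
  rw [map_natCast]

/-- Coefficient `1` of `X² + b X + c`. -/
theorem dict_coeff_one {R : Type*} [CommRing R] (b c : R) :
    (X ^ 2 + C b * X + C c : R[X]).coeff 1 = b := by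
  simp [coeff_X_pow, coeff_C]

/-- Coefficient `0` of `X² + b X + c`. -/
theorem dict_coeff_zero {R : Type*} [CommRing R] (b c : R) :
    (X ^ 2 + C b * X + C c : R[X]).coeff 0 = c := by
  simp [coeff_X_pow]

/-- **Leaf DICT from frozen S29.** -/
theorem dict_of_S29 (h29 : DictS29Statement) : Fermat.Agent.S59.Arch.DictStatement := by
  intro p _ hp2 W hΔ hW hirr hcard hker N _ S hpS hS hNS hmod
  classical
  have hpp : p.Prime := Fact.out
  obtain ⟨f, 𝔪, hf, h𝔪, hp𝔪, hcong⟩ := hmod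
  have := h𝔪
  let _ : Field (integralClosure ℤ ℂ ⧸ 𝔪) := Ideal.Quotient.field 𝔪
  have hpk : ((p : ℕ) : integralClosure ℤ ℂ ⧸ 𝔪) = 0 := by
    have h1 := Ideal.Quotient.eq_zero_iff_mem.mpr hp𝔪
    rw [map_natCast] at h1
    exact h1
  have : CharP (integralClosure ℤ ℂ ⧸ 𝔪) p := (CharP.charP_iff_prime_eq_zero hpp).mpr hpk
  -- 1. the eigencharacter
  let incl : heckeAlgebra N 2 (↑S : Set ℕ) →+* heckeAlgebra N 2 (∅ : Set ℕ) :=
    (Subalgebra.inclusion (heckeAlgebra_mono (Set.empty_subset _))).toRingHom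
  let χ₀ : heckeAlgebra N 2 (↑S : Set ℕ) →+* integralClosure ℤ ℂ :=
    (Fermat.Agent.Lib.Ribet.H404.eigenCharInt hf).comp incl
  have hχ₀T : ∀ (ℓ : ℕ) (hℓ : ℓ.Prime) (hℓN : ¬ ℓ ∣ N) (hℓS : ℓ ∉ (↑S : Set ℕ)),
      ((χ₀ (heckeAlgebra.T hℓ hℓN hℓS) : integralClosure ℤ ℂ) : ℂ)
        = ModularFormClass.qCoeff f ℓ := by
    intro ℓ hℓ hℓN hℓS
    have e : incl (heckeAlgebra.T hℓ hℓN hℓS) = heckeAlgebra.T hℓ hℓN (Set.notMem_empty _) :=
      Subtype.ext rfl
    show ((Fermat.Agent.Lib.Ribet.H404.eigenCharInt hf (incl (heckeAlgebra.T hℓ hℓN hℓS)) :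
      integralClosure ℤ ℂ) : ℂ) = _
    rw [e, Fermat.Agent.Lib.Ribet.H404.coe_eigenCharInt,
      Fermat.Agent.Lib.Ribet.H404.eigenChar_T]
  -- 2. a point centred at `ker θ₀`
  have hm : (RingHom.ker ((Ideal.Quotient.mk 𝔪).comp χ₀)).IsPrime := RingHom.ker_isPrime _
  have hpm : ((p : ℕ) : heckeAlgebra N 2 (↑S : Set ℕ)) ∈
      RingHom.ker ((Ideal.Quotient.mk 𝔪).comp χ₀) := by
    rw [RingHom.mem_ker, map_natCast]
    exact hpk
  have hfin : Module.Finite ℤ (heckeAlgebra N 2 (↑S : Set ℕ)) := Fermat.Agent.S22.result N 2 _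
  have hred : IsReduced (heckeAlgebra N 2 (↑S : Set ℕ)) :=
    Fermat.Agent.S31.H862.heckeAlgebra_isReduced N _ (fun q hq hqN => by
      simpa using hNS q hq hqN)
  have hPTS := Fermat.Agent.S31.H262.pts_of_reduced p hpp (heckeAlgebra N 2 (↑S : Set ℕ))
  obtain ⟨P, hP⟩ := dict_exists_point_of_pts hPTS _ hpm
  -- 3. the coefficient ring
  obtain ⟨O', i1, i2, i3, i4, i5, i6, e, ι, he, hpO', hsplit⟩ := dict_exists_ext p P.O P.hp
  refine ⟨O', i1, i2, i3, i4, i5, i6, ι, e.comp P.χ, hpO', hsplit, ?_⟩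
  -- 4. the Frobenius condition
  intro ℓ hℓ hℓN hℓS B hB σ hσ
  have hℓp : ℓ ≠ p := by
    rintro rfl
    exact hℓS (by simpa using hpS)
  obtain ⟨a₀, ha₀, hchar⟩ := dict_charpoly_transport h29 p W hΔ hirr hcard hker hf 𝔪 hp𝔪 hcong
    (ZMod.castHom (dvd_refl p) (integralClosure ℤ ℂ ⧸ 𝔪)) ℓ hℓ hℓN hℓp B hB σ hσ
  have hmonic : (LinearMap.charpoly
      (((W.map (Int.castRingHom ℚ)).residualGaloisRepOf p hcard hker).ρ σ)).Monic :=
    LinearMap.charpoly_monic _
  have hdeg : (LinearMap.charpoly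
      (((W.map (Int.castRingHom ℚ)).residualGaloisRepOf p hcard hker).ρ σ)).natDegree = 2 := by
    rw [LinearMap.charpoly_natDegree]
    exact ((W.map (Int.castRingHom ℚ)).residualGaloisRepOf p hcard hker).finrank_eq
  have hquad := dict_monic_quadratic hmonic hdeg
  show LinearMap.charpoly ((Fermat.Agent.S59.Arch.curveResidual p W hcard hker ι).ρ σ)
    = X ^ 2 - C (((residue O').comp (e.comp P.χ)) (heckeAlgebra.T hℓ hℓN hℓS)) * X
      + C ((ℓ : ℕ) : ResidueField O')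
  rw [show Fermat.Agent.S59.Arch.curveResidual p W hcard hker ι
      = ((W.map (Int.castRingHom ℚ)).residualGaloisRepOf p hcard hker).baseChangeAlong ι from rfl,
    dict_charpoly_baseChangeAlong]
  generalize LinearMap.charpoly
      (((W.map (Int.castRingHom ℚ)).residualGaloisRepOf p hcard hker).ρ σ) = P₀
    at hchar hquad ⊢
  -- the coefficients modulo `𝔪`
  have hmap : P₀.map (ZMod.castHom (dvd_refl p) (integralClosure ℤ ℂ ⧸ 𝔪))
      = X ^ 2 + C (((P₀.coeff 1).val : ℕ) : integralClosure ℤ ℂ ⧸ 𝔪) * X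
        + C (((P₀.coeff 0).val : ℕ) : integralClosure ℤ ℂ ⧸ 𝔪) := by
    conv_lhs => rw [hquad]
    rw [Polynomial.map_add, Polynomial.map_add, Polynomial.map_mul, Polynomial.map_pow,
      Polynomial.map_X, Polynomial.map_C, Polynomial.map_C, dict_map_zmod, dict_map_zmod]
  rw [hmap] at hchar
  have hrew : (X ^ 2 - C (Ideal.Quotient.mk 𝔪 a₀) * X + C ((ℓ : ℕ) : integralClosure ℤ ℂ ⧸ 𝔪) :
      (integralClosure ℤ ℂ ⧸ 𝔪)[X])
      = X ^ 2 + C (-(Ideal.Quotient.mk 𝔪 a₀)) * X + C ((ℓ : ℕ) : integralClosure ℤ ℂ ⧸ 𝔪) := by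
    rw [map_neg]
    ring
  rw [hrew] at hchar
  have hc1 : (((P₀.coeff 1).val : ℕ) : integralClosure ℤ ℂ ⧸ 𝔪) = -(Ideal.Quotient.mk 𝔪 a₀) := by
    have h1 := congrArg (fun q : (integralClosure ℤ ℂ ⧸ 𝔪)[X] => q.coeff 1) hchar
    rwa [dict_coeff_one, dict_coeff_one] at h1
  have hc0 : (((P₀.coeff 0).val : ℕ) : integralClosure ℤ ℂ ⧸ 𝔪)
      = ((ℓ : ℕ) : integralClosure ℤ ℂ ⧸ 𝔪) := by
    have h1 := congrArg (fun q : (integralClosure ℤ ℂ ⧸ 𝔪)[X] => q.coeff 0) hchar
    rwa [dict_coeff_zero, dict_coeff_zero] at h1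
  have hc0' : P₀.coeff 0 = ((ℓ : ℕ) : ZMod p) := by
    apply (ZMod.castHom (dvd_refl p) (integralClosure ℤ ℂ ⧸ 𝔪)).injective
    rw [dict_map_zmod, hc0, map_natCast]
  -- `T_ℓ + c₁` lies in `ker θ₀`
  have hmem : heckeAlgebra.T hℓ hℓN hℓS + (((P₀.coeff 1).val : ℕ) : heckeAlgebra N 2 (↑S : Set ℕ))
      ∈ RingHom.ker ((Ideal.Quotient.mk 𝔪).comp χ₀) := by
    have ha : χ₀ (heckeAlgebra.T hℓ hℓN hℓS) = a₀ :=
      Subtype.ext ((hχ₀T ℓ hℓ hℓN hℓS).trans ha₀.symm)
    rw [RingHom.mem_ker, map_add, map_natCast, RingHom.comp_apply, ha, hc1, add_neg_cancel]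
  -- reduce at the point
  have hres : residue O' (e (P.χ (heckeAlgebra.T hℓ hℓN hℓS))) = -ι (P₀.coeff 1) := by
    have h1 := he _ (hP _ hmem)
    rw [map_add, map_add, map_natCast, map_natCast] at h1
    have h2 := (residue_eq_zero_iff _).mpr h1
    rw [map_add, map_natCast] at h2
    rw [dict_map_zmod ι]
    exact eq_neg_of_add_eq_zero_left h2
  rw [RingHom.comp_apply, RingHom.comp_apply, hres]
  conv_lhs => rw [hquad]
  rw [Polynomial.map_add, Polynomial.map_add, Polynomial.map_mul, Polynomial.map_pow,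
    Polynomial.map_X, Polynomial.map_C, Polynomial.map_C, hc0', map_natCast, map_neg]
  ring

end Fermat.Agent.S59.H401
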