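import Fermat.Agent.S59.Arch.SpecRT
import Fermat.Agent.S59.H667.E23Final
import Fermat.Agent.Lib.Cheb.Chebotarev

/-!
# Row S59, leaf DICT (helper401), part 1: the Frobenius characteristic polynomials of `E[p]`

Let `W` be an integral Weierstrass model with `Δ ≠ 0` and irreducible `E[p]`, residually modular
of level `N` (witness: a normalised eigenform `f` and a maximal ideal `𝔪 ∋ p` of `ℤ̄`).

* `dict_charpoly_good`      : `charpoly (E[p])(Frob_ℓ) = X² − a_ℓ(W) X + ℓ` for a good prime `ℓ ≥ 5`,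
  `ℓ ≠ p` (the finite-level statement of `S59/H667` at level `p`, in the Prelude language
  `residualGaloisRepOf`).
* `dict_charpoly_transport` : for EVERY prime `ℓ₀ ∤ N p` (possibly a bad prime of `W`) and every
  Frobenius element `σ₀` at `ℓ₀`,
  `charpoly (E[p])(σ₀) = X² − a_{ℓ₀}(f) X + ℓ₀` in `(ℤ̄/𝔪)[X]`.
  Inputs: frozen S29 (as a hypothesis, `DictS29Statement`) and exact Chebotarev (on main).
-/

set_option autoImplicit false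

open Polynomial WeierstrassCurve WeierstrassCurve.Affine WeierstrassCurve.Affine.Point
open CuspForm ModularFormClass

namespace Fermat.Agent.S59.H401

/-- `ℚ̄` -/
abbrev DQb : Type := AlgebraicClosure ℚ

/-- `Gal(ℚ̄/ℚ)` -/
abbrev DGQ : Type := DQb ≃ₐ[ℚ] DQb

/-- The exact type of the frozen statement S29 (input of the leaf, on main as
`Fermat.Agent.S29.result`). -/
def DictS29Statement : Prop :=
  ∀ {N : ℕ} {g : CuspForm (CongruenceSubgroup.Gamma0 N) 2} (_hg : g.IsNormalizedEigenform)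
    {p : ℕ} (_hp : p.Prime) {k : Type} [Field k] [CharP k p]
    (φ : integralClosure ℤ ℂ →+* k),
    ∃ ρ : ResidualGaloisRep k, ρ.IsAttachedTo g φ ∧
      ∀ ℓ : ℕ, ℓ.Prime → ¬ ℓ ∣ N * p → ρ.IsUnramifiedAt ℓ

/-- The finite-level Frobenius characteristic polynomial at level `m = p ^ 1`. -/
theorem dict_charpoly_rhoFin_of_eq (W : WeierstrassCurve ℤ) (hΔ : W.Δ ≠ 0) (p : ℕ)
    [Fact p.Prime] (hirr : W.ModRepIsIrreducible p)
    (ℓ : ℕ) (hℓ : ℓ.Prime) (h5 : 5 ≤ ℓ) (hgood : W.IsGoodPrimeFor ℓ) (hℓp : ℓ ≠ p)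
    (A : ValuationSubring DQb) (hA : A.LiesOverPrime ℓ) (τ : DGQ) (hτ : A.IsFrobeniusAt τ ℓ)
    (m : ℕ) (hm : m = p ^ 1)
    [Module.Free (ZMod m) (Fermat.Agent.S59.H667.TorsE W m)]
    [Module.Finite (ZMod m) (Fermat.Agent.S59.H667.TorsE W m)] :
    LinearMap.charpoly (Fermat.Agent.S59.H667.rhoFin W m τ)
      = X ^ 2 - C ((W.apOfModel ℓ : ℤ) : ZMod m) * X + C (((ℓ : ℤ) : ZMod m)) := by
  subst hm
  have := Fermat.Agent.S59.H667.isElliptic_of_Δ_ne_zero W hΔ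
  obtain ⟨cb⟩ := Fermat.Agent.S59.H127.nonempty_compatBasis_point
    ((W.map (Int.castRingHom ℚ))⁄(AlgebraicClosure ℚ)) p
  exact Fermat.Agent.S59.H667.charpoly_rhoFin_frob' W hΔ p hirr cb 1 ℓ hℓ h5 hgood hℓp A hA τ hτ

/-- **Frobenius on `E[p]` at a good prime `ℓ ≥ 5`, `ℓ ≠ p`.** -/
theorem dict_charpoly_good (W : WeierstrassCurve ℤ) (hΔ : W.Δ ≠ 0) (p : ℕ) [Fact p.Prime]
    (hirr : W.ModRepIsIrreducible p)
    (hcard : Nat.card (Submodule.torsionBy ℤ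
      ((W.map (Int.castRingHom ℚ))⁄(AlgebraicClosure ℚ)).Point p) = p ^ 2)
    (hker : GaloisFactorsThroughFiniteLevel
      (WeierstrassCurve.Affine.Point.galoisRepModuleEnd (K := AlgebraicClosure ℚ) ℚ
        (W.map (Int.castRingHom ℚ)) p))
    (ℓ : ℕ) (hℓ : ℓ.Prime) (h5 : 5 ≤ ℓ) (hgood : W.IsGoodPrimeFor ℓ) (hℓp : ℓ ≠ p)
    (A : ValuationSubring DQb) (hA : A.LiesOverPrime ℓ) (τ : DGQ) (hτ : A.IsFrobeniusAt τ ℓ) :
    LinearMap.charpoly (((W.map (Int.castRingHom ℚ)).residualGaloisRepOf p hcard hker).ρ τ)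
      = X ^ 2 - C ((W.apOfModel ℓ : ℤ) : ZMod p) * X + C ((ℓ : ZMod p)) := by
  have : Module.Finite (ZMod p) (Fermat.Agent.S59.H667.TorsE W p) :=
    ResidualGaloisRep.instModuleFinite ((W.map (Int.castRingHom ℚ)).residualGaloisRepOf p hcard hker)
  have h := dict_charpoly_rhoFin_of_eq W hΔ p hirr ℓ hℓ h5 hgood hℓp A hA τ hτ p (pow_one p).symm
  rw [Int.cast_natCast] at h
  exact h

/-- If `τ` and `σ` agree on a finite level through which `r` factors, then `r τ = r σ`. -/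
theorem dict_map_eq_of_agree {M : Type} [Monoid M] (r : DGQ →* M)
    (L : IntermediateField ℚ DQb) (hL : ∀ σ : DGQ, (∀ x ∈ L, σ x = x) → r σ = 1)
    (σ τ : DGQ) (h : ∀ x ∈ L, τ x = σ x) : r τ = r σ := by
  have h1 : r (σ⁻¹ * τ) = 1 := by
    apply hL
    intro z hz
    rw [AlgEquiv.mul_apply, h z hz]
    exact σ.symm_apply_apply z
  have h2 : r τ = r (σ * (σ⁻¹ * τ)) := by rw [mul_inv_cancel_left]
  rw [h2, map_mul, h1, mul_one]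

/-- A prime different from `2` and `3` is at least `5`. -/
theorem dict_five_le {ℓ : ℕ} (hℓ : ℓ.Prime) (h2 : ℓ ≠ 2) (h3 : ℓ ≠ 3) : 5 ≤ ℓ := by
  by_contra hlt
  have h4 : ℓ ≤ 4 := by omega
  have h1 := hℓ.two_le
  interval_cases ℓ
  · exact h2 rfl
  · exact h3 rfl
  · exact absurd hℓ (by decide)

/-- **Transport of the Frobenius characteristic polynomials.**  Let `W` be residually modular of
level `N` (witness `f`, `𝔪`), with `E[p]` irreducible.  For EVERY prime `ℓ₀ ∤ N`, `ℓ₀ ≠ p`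
(good or bad for `W`) and every Frobenius element `σ₀` at `ℓ₀`, the characteristic polynomial of
`σ₀` on `E[p]` is `X² − a_{ℓ₀}(f) X + ℓ₀` modulo `𝔪`. -/
theorem dict_charpoly_transport (h29 : DictS29Statement)
    (p : ℕ) [Fact p.Prime] (W : WeierstrassCurve ℤ) (hΔ : W.Δ ≠ 0)
    (hirr : W.ModRepIsIrreducible p)
    (hcard : Nat.card (Submodule.torsionBy ℤ
      ((W.map (Int.castRingHom ℚ))⁄(AlgebraicClosure ℚ)).Point p) = p ^ 2)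
    (hker : GaloisFactorsThroughFiniteLevel
      (WeierstrassCurve.Affine.Point.galoisRepModuleEnd (K := AlgebraicClosure ℚ) ℚ
        (W.map (Int.castRingHom ℚ)) p))
    {N : ℕ} {f : CuspForm (CongruenceSubgroup.Gamma0 N) 2} (hf : f.IsNormalizedEigenform)
    (𝔪 : Ideal (integralClosure ℤ ℂ)) [h𝔪 : 𝔪.IsMaximal]
    (hp𝔪 : (p : integralClosure ℤ ℂ) ∈ 𝔪)
    (hcong : ∀ ℓ : ℕ, ℓ.Prime → W.IsGoodPrimeFor ℓ → ¬ ℓ ∣ N → ℓ ≠ p →
      ∃ a : integralClosure ℤ ℂ, (a : ℂ) = ModularFormClass.qCoeff f ℓ ∧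
        a - ((W.apOfModel ℓ : ℤ) : integralClosure ℤ ℂ) ∈ 𝔪)
    (j : ZMod p →+* integralClosure ℤ ℂ ⧸ 𝔪)
    (ℓ₀ : ℕ) (hℓ₀ : ℓ₀.Prime) (hℓ₀N : ¬ ℓ₀ ∣ N) (hℓ₀p : ℓ₀ ≠ p)
    (A₀ : ValuationSubring DQb) (hA₀ : A₀.LiesOverPrime ℓ₀) (σ₀ : DGQ)
    (hσ₀ : A₀.IsFrobeniusAt σ₀ ℓ₀) :
    ∃ a₀ : integralClosure ℤ ℂ, (a₀ : ℂ) = ModularFormClass.qCoeff f ℓ₀ ∧
      (LinearMap.charpoly
          (((W.map (Int.castRingHom ℚ)).residualGaloisRepOf p hcard hker).ρ σ₀)).map j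
        = X ^ 2 - C (Ideal.Quotient.mk 𝔪 a₀) * X + C ((ℓ₀ : ℕ) : integralClosure ℤ ℂ ⧸ 𝔪) := by
  classical
  have hpp : p.Prime := Fact.out
  have hN : N ≠ 0 := by
    rintro rfl
    exact hℓ₀N (dvd_zero _)
  let _ : Field (integralClosure ℤ ℂ ⧸ 𝔪) := Ideal.Quotient.field 𝔪
  have hpk : ((p : ℕ) : integralClosure ℤ ℂ ⧸ 𝔪) = 0 := by
    have h1 := Ideal.Quotient.eq_zero_iff_mem.mpr hp𝔪
    rw [map_natCast] at h1
    exact h1
  have : CharP (integralClosure ℤ ℂ ⧸ 𝔪) p := (CharP.charP_iff_prime_eq_zero hpp).mpr hpk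
  obtain ⟨ρ, hatt, -⟩ := h29 hf hpp (Ideal.Quotient.mk 𝔪)
  obtain ⟨Lρ, hLρfin, hLρ⟩ := ρ.factorsThroughFiniteLevel
  obtain ⟨LW, hLWfin, hLW⟩ := hker
  have := hLρfin
  have := hLWfin
  obtain ⟨ℓ, A, τ, hℓ, hℓS, hA, hτ, -, hτσ⟩ := Fermat.Agent.Lib.Cheb.chebotarev
    (Lρ ⊔ LW) inferInstance σ₀
    (N.primeFactors ∪ {p} ∪ W.Δ.natAbs.primeFactors ∪ {2, 3})
  simp only [Finset.mem_union, Finset.mem_singleton, Finset.mem_insert, not_or] at hℓS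
  obtain ⟨⟨⟨hℓN', hℓp⟩, hℓbad⟩, hℓ2, hℓ3⟩ := hℓS
  have hℓN : ¬ ℓ ∣ N := fun h => hℓN' (Nat.mem_primeFactors.mpr ⟨hℓ, h, hN⟩)
  have hℓgood : W.IsGoodPrimeFor ℓ := by
    intro hdvd
    apply hℓbad
    rw [Nat.mem_primeFactors]
    exact ⟨hℓ, Int.natCast_dvd.mp hdvd, Int.natAbs_ne_zero.mpr hΔ⟩
  have h5 : 5 ≤ ℓ := dict_five_le hℓ hℓ2 hℓ3
  -- the two representations do not distinguish `τ` and `σ₀`
  have hρ : ρ.ρ τ = ρ.ρ σ₀ :=
    dict_map_eq_of_agree ρ.ρ Lρ hLρ σ₀ τ (fun x hx => hτσ x (le_sup_left (a := Lρ) hx))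
  have hW : ((W.map (Int.castRingHom ℚ)).residualGaloisRepOf p hcard ⟨LW, hLWfin, hLW⟩).ρ τ
      = ((W.map (Int.castRingHom ℚ)).residualGaloisRepOf p hcard ⟨LW, hLWfin, hLW⟩).ρ σ₀ :=
    dict_map_eq_of_agree _ LW hLW σ₀ τ (fun x hx => hτσ x (le_sup_right (b := LW) hx))
  -- Frobenius at the good prime `ℓ`
  have hgoodchar := dict_charpoly_good W hΔ p hirr hcard ⟨LW, hLWfin, hLW⟩ ℓ hℓ h5 hℓgood hℓp
    A hA τ hτ
  have hℓk : ((ℓ : ℕ) : integralClosure ℤ ℂ ⧸ 𝔪) ≠ 0 := by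
    intro h0
    have := (CharP.cast_eq_zero_iff (integralClosure ℤ ℂ ⧸ 𝔪) p ℓ).mp h0
    exact hℓp ((Nat.prime_dvd_prime_iff_eq hpp hℓ).mp this).symm
  have hℓ₀k : ((ℓ₀ : ℕ) : integralClosure ℤ ℂ ⧸ 𝔪) ≠ 0 := by
    intro h0
    have := (CharP.cast_eq_zero_iff (integralClosure ℤ ℂ ⧸ 𝔪) p ℓ₀).mp h0
    exact hℓ₀p ((Nat.prime_dvd_prime_iff_eq hpp hℓ₀).mp this).symm
  obtain ⟨a, haC, hachar⟩ := hatt ℓ hℓ hℓN hℓk A hA τ hτ
  obtain ⟨a₀, ha₀C, ha₀char⟩ := hatt ℓ₀ hℓ₀ hℓ₀N hℓ₀k A₀ hA₀ σ₀ hσ₀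
  obtain ⟨b, hbC, hb𝔪⟩ := hcong ℓ hℓ hℓgood hℓN hℓp
  have hab : a = b := Subtype.ext (haC.trans hbC.symm)
  have hmk : Ideal.Quotient.mk 𝔪 a = ((W.apOfModel ℓ : ℤ) : integralClosure ℤ ℂ ⧸ 𝔪) := by
    have h1 := Ideal.Quotient.eq_zero_iff_mem.mpr hb𝔪
    rw [map_sub, map_intCast, sub_eq_zero] at h1
    rw [hab]
    exact h1
  refine ⟨a₀, ha₀C, ?_⟩
  rw [← hW, hgoodchar, ← ha₀char, ← hρ, hachar, hmk]
  rw [Polynomial.map_add, Polynomial.map_sub, Polynomial.map_mul, Polynomial.map_pow,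
    Polynomial.map_X, Polynomial.map_C, Polynomial.map_C, map_intCast, map_natCast]

end Fermat.Agent.S59.H401
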