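import Fermat.Agent.S59.H401.Dict

/-!
# Row S59 / row HARD, cell DICT with LARGE coefficients (helper401)

`Fermat.Agent.S59.Arch.DictStatement` produces SOME coefficient ring `𝒪`.  The Ihara-avoidance
chain of row HARD (`S38/IA/Spec.lean`, `IACoreStatement`) needs `𝒪` to contain the `p`-power roots
of unity of order dividing `q - 1` at the pivots.  Here:

* `dict_exists_ext_root` : every complete DVR `O` of characteristic zero with finite residue field
  of characteristic `p` has a finite extension `O'` of the same kind containing a primitive `n`-th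
  root of unity (`O'` = integral closure of `O` in the `n`-th cyclotomic field of `Frac O`);
* `dict_transfer` : the conclusion of DICT is stable under local extensions of the coefficients;
* `DictLargeStatement` = `DictStatement` + `∃ ζ : 𝒪, IsPrimitiveRoot ζ n` for a prescribed `n > 0`
  (hence primitive `d`-th roots of unity for all `d ∣ n`: `dict_primitiveRoot_of_dvd`);
* `dictLarge_of_dict : DictStatement → DictLargeStatement`.

The unconditional form `dictLarge : DictLargeStatement` is in `DictLargeFinal.lean`.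
-/

set_option autoImplicit false
set_option linter.style.haveILetI false

open Polynomial IsLocalRing
open scoped WeierstrassCurve.Affine

namespace Fermat.Agent.S59.H401

/-- **Adjoining roots of unity** to a complete DVR of characteristic zero. -/
theorem dict_exists_ext_root (p : ℕ) (n : ℕ) (hn : 0 < n)
    (O : Type) [CommRing O] [IsDomain O] [IsDiscreteValuationRing O]
    [IsAdicComplete (maximalIdeal O) O] [Finite (ResidueField O)] [CharZero O]
    (hpO : (p : O) ∈ maximalIdeal O) :
    ∃ (O' : Type) (_ : CommRing O') (_ : IsDomain O') (_ : IsDiscreteValuationRing O')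
      (_ : IsAdicComplete (maximalIdeal O') O') (_ : Finite (ResidueField O'))
      (_ : CharZero O') (e : O →+* O') (_ : IsLocalHom e),
      Function.Injective e ∧ (p : O') ∈ maximalIdeal O' ∧ ∃ ζ : O', IsPrimitiveRoot ζ n := by
  classical
  haveI : CharZero (FractionRing O) :=
    charZero_of_injective_algebraMap (IsFractionRing.injective O (FractionRing O))
  haveI : NeZero n := ⟨hn.ne'⟩
  haveI : NeZero ((n : ℕ) : FractionRing O) := ⟨by exact_mod_cast hn.ne'⟩
  haveI hfd : FiniteDimensional (FractionRing O) (CyclotomicField n (FractionRing O)) :=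
    IsCyclotomicExtension.finiteDimensional {n} (FractionRing O) _
  have hdvr : IsDiscreteValuationRing
      (Fermat.Agent.S59.G4.H109.intRingO O (CyclotomicField n (FractionRing O))) :=
    Fermat.Agent.S59.G4.H109.intRingO_isDiscreteValuationRing O (FractionRing O) _
  have hloc : IsLocalHom (algebraMap O
      (Fermat.Agent.S59.G4.H109.intRingO O (CyclotomicField n (FractionRing O)))) :=
    Fermat.Agent.S59.G4.H109.intRingO_isLocalHom O (FractionRing O) _
  have hpO' : ((p : ℕ) : Fermat.Agent.S59.G4.H109.intRingO O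
        (CyclotomicField n (FractionRing O))) ∈
      maximalIdeal (Fermat.Agent.S59.G4.H109.intRingO O
        (CyclotomicField n (FractionRing O))) := by
    have h1 : algebraMap O (Fermat.Agent.S59.G4.H109.intRingO O
        (CyclotomicField n (FractionRing O))) (p : O) ∈
        maximalIdeal (Fermat.Agent.S59.G4.H109.intRingO O
          (CyclotomicField n (FractionRing O))) := by
      rw [mem_maximalIdeal, mem_nonunits_iff] at hpO ⊢
      exact fun hu => hpO (hloc.map_nonunit _ hu)
    rwa [map_natCast] at h1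
  obtain ⟨ζ, hζ⟩ := IsCyclotomicExtension.exists_isPrimitiveRoot (FractionRing O)
    (CyclotomicField n (FractionRing O)) (Set.mem_singleton n) hn.ne'
  have hint : IsIntegral O ζ := by
    refine ⟨X ^ n - 1, monic_X_pow_sub_C 1 hn.ne', ?_⟩
    simp [hζ.pow_eq_one]
  refine ⟨Fermat.Agent.S59.G4.H109.intRingO O (CyclotomicField n (FractionRing O)),
    inferInstance, inferInstance, hdvr,
    Fermat.Agent.S59.G4.H109.intRingO_isAdicComplete O (FractionRing O) _,
    Fermat.Agent.S59.G4.H109.intRingO_finite_residueField O (FractionRing O) _,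
    Fermat.Agent.S59.G4.H109.intRingO_charZero O (FractionRing O) _,
    algebraMap O _, hloc,
    Fermat.Agent.S59.G4.H109.algebraMap_intRingO_injective O (FractionRing O) _, hpO',
    ⟨ζ, hint⟩, ?_⟩
  refine IsPrimitiveRoot.of_map_of_injective
    (f := (Fermat.Agent.S59.G4.H109.intRingO O (CyclotomicField n (FractionRing O))).val)
    ?_ Subtype.val_injective
  exact hζ

/-- Primitive roots of unity of every order dividing `n`. -/
theorem dict_primitiveRoot_of_dvd {R : Type*} [CommRing R] [IsDomain R] {n d : ℕ} (hn : 0 < n)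
    {ζ : R} (hζ : IsPrimitiveRoot ζ n) (hd : d ∣ n) : ∃ ξ : R, IsPrimitiveRoot ξ d := by
  obtain ⟨c, rfl⟩ := hd
  have hd0 : d ≠ 0 := by
    rintro rfl
    simp at hn
  have hc0 : c ≠ 0 := by
    rintro rfl
    simp at hn
  exact ⟨ζ ^ c, hζ.pow (Nat.mul_pos (Nat.pos_of_ne_zero hd0) (Nat.pos_of_ne_zero hc0))
    (mul_comm d c)⟩

/-- **The conclusion of DICT is stable under local extensions of the coefficient ring.** -/
theorem dict_transfer (p : ℕ) [Fact p.Prime] (W : WeierstrassCurve ℤ)
    (hcard : Nat.card (Submodule.torsionBy ℤ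
      ((W.map (Int.castRingHom ℚ))⁄(AlgebraicClosure ℚ)).Point p) = p ^ 2)
    (hker : GaloisFactorsThroughFiniteLevel
      (WeierstrassCurve.Affine.Point.galoisRepModuleEnd (K := AlgebraicClosure ℚ) ℚ
        (W.map (Int.castRingHom ℚ)) p))
    {N : ℕ} [NeZero N] {S : Set ℕ}
    (O : Type) [CommRing O] [IsLocalRing O]
    (O' : Type) [CommRing O'] [IsLocalRing O']
    (e : O →+* O') [IsLocalHom e]
    (ι : ZMod p →+* ResidueField O) (χ : CuspForm.heckeAlgebra N 2 S →+* O)
    (hsplit : ∀ f : (ZMod p)[X], f.Monic → f.natDegree = 2 →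
      ∃ α β : ResidueField O, f.map ι = (X - C α) * (X - C β))
    (hfrob : Fermat.Agent.S59.G4.ResFrobCond
      (Fermat.Agent.S59.Arch.curveResidual p W hcard hker ι) ((residue O).comp χ)) :
    (∀ f : (ZMod p)[X], f.Monic → f.natDegree = 2 →
      ∃ α β : ResidueField O', f.map ((ResidueField.map e).comp ι) = (X - C α) * (X - C β)) ∧
    Fermat.Agent.S59.G4.ResFrobCond
      (Fermat.Agent.S59.Arch.curveResidual p W hcard hker ((ResidueField.map e).comp ι))
      ((residue O').comp (e.comp χ)) := by
  refine ⟨fun f hf hdeg => ?_, ?_⟩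
  · obtain ⟨α, β, h⟩ := hsplit f hf hdeg
    refine ⟨ResidueField.map e α, ResidueField.map e β, ?_⟩
    rw [← Polynomial.map_map, h]
    simp only [Polynomial.map_mul, Polynomial.map_sub, Polynomial.map_X, Polynomial.map_C]
  · intro ℓ hℓ hℓN hℓS B hB σ hσ
    have h0 := hfrob ℓ hℓ hℓN hℓS B hB σ hσ
    rw [show Fermat.Agent.S59.Arch.curveResidual p W hcard hker ι
        = ((W.map (Int.castRingHom ℚ)).residualGaloisRepOf p hcard hker).baseChangeAlong ι
        from rfl, dict_charpoly_baseChangeAlong] at h0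
    rw [show Fermat.Agent.S59.Arch.curveResidual p W hcard hker ((ResidueField.map e).comp ι)
        = ((W.map (Int.castRingHom ℚ)).residualGaloisRepOf p hcard hker).baseChangeAlong
          ((ResidueField.map e).comp ι) from rfl, dict_charpoly_baseChangeAlong,
      ← Polynomial.map_map, h0]
    simp only [Polynomial.map_add, Polynomial.map_sub, Polynomial.map_mul, Polynomial.map_pow,
      Polynomial.map_X, Polynomial.map_C, RingHom.comp_apply, ResidueField.map_residue,
      map_natCast, Polynomial.map_natCast]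

/-- **Cell DICT with prescribed roots of unity in the coefficient ring.** -/
def DictLargeStatement : Prop :=
  ∀ (p : ℕ) [Fact p.Prime] (_hp2 : p ≠ 2)
    (W : WeierstrassCurve ℤ) (_hΔ : W.Δ ≠ 0) (_hW : W.IsSemistableModel)
    (_hirr : W.ModRepIsIrreducible p)
    (hcard : Nat.card (Submodule.torsionBy ℤ
      ((W.map (Int.castRingHom ℚ))⁄(AlgebraicClosure ℚ)).Point p) = p ^ 2)
    (hker : GaloisFactorsThroughFiniteLevel
      (WeierstrassCurve.Affine.Point.galoisRepModuleEnd (K := AlgebraicClosure ℚ) ℚ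
        (W.map (Int.castRingHom ℚ)) p))
    (N : ℕ) [NeZero N] (S : Finset ℕ) (_hpS : p ∈ S) (_hS : ∀ q ∈ S, q.Prime)
    (_hNS : ∀ q : ℕ, q.Prime → q ∣ N → q ∈ S)
    (_hmod : W.IsResiduallyModularOfLevel p N)
    (n : ℕ) (_hn : 0 < n),
    ∃ (𝒪 : Type) (_ : CommRing 𝒪) (_ : IsDomain 𝒪) (_ : IsDiscreteValuationRing 𝒪)
      (_ : IsAdicComplete (maximalIdeal 𝒪) 𝒪) (_ : Finite (ResidueField 𝒪))
      (_ : CharZero 𝒪) (ι : ZMod p →+* ResidueField 𝒪)
      (χ : CuspForm.heckeAlgebra N 2 (↑S : Set ℕ) →+* 𝒪),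
      (p : 𝒪) ∈ maximalIdeal 𝒪 ∧
      (∀ f : (ZMod p)[X], f.Monic → f.natDegree = 2 →
        ∃ α β : ResidueField 𝒪, f.map ι = (X - C α) * (X - C β)) ∧
      Fermat.Agent.S59.G4.ResFrobCond
        (Fermat.Agent.S59.Arch.curveResidual p W hcard hker ι) ((residue 𝒪).comp χ) ∧
      (∃ ζ : 𝒪, IsPrimitiveRoot ζ n) ∧
      ∀ d : ℕ, d ∣ n → ∃ ξ : 𝒪, IsPrimitiveRoot ξ d

/-- **DICT with large coefficients, from DICT.** -/
theorem dictLarge_of_dict (h : Fermat.Agent.S59.Arch.DictStatement) : DictLargeStatement := by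
  intro p _ hp2 W hΔ hW hirr hcard hker N _ S hpS hS hNS hmod n hn
  obtain ⟨𝒪, i1, i2, i3, i4, i5, i6, ι, χ, hp𝒪, hsplit, hfrob⟩ :=
    h p hp2 W hΔ hW hirr hcard hker N S hpS hS hNS hmod
  obtain ⟨O', j1, j2, j3, j4, j5, j6, e, he, -, hpO', ζ, hζ⟩ :=
    dict_exists_ext_root p n hn 𝒪 hp𝒪
  obtain ⟨hsplit', hfrob'⟩ := dict_transfer p W hcard hker 𝒪 O' e ι χ hsplit hfrob
  exact ⟨O', j1, j2, j3, j4, j5, j6, (ResidueField.map e).comp ι, e.comp χ, hpO', hsplit',
    hfrob', ⟨ζ, hζ⟩, fun d hd => dict_primitiveRoot_of_dvd hn hζ hd⟩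

end Fermat.Agent.S59.H401
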